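import Fermat.Agent.A2.IF.H429.IF
import Fermat.Agent.A2.ModDefs
import Fermat.Agent.Lib.Cheb.H643.FrobAt

/-!
# S35, cell FROB, leaf IFF (helper766): good levels stable under the decomposition group

Setting of wall A2 (`Fermat/Agent/A2/Spec.lean`): `P` a valuation subring of `ℚ̄` over the prime
`q`, `I_P ≤ D_P` inertia and decomposition group.  The good levels of piece IF
(`A2/IF/H429`: `level P S = ℚ̄^{I_P}(conjugates of S)`) are stable under all of `D_P`, not only
under `I_P`.  Hence a Frobenius lift `s` at `P` acts on the level `E`, on `R_E = P ∩ E` and on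
the function field `F_{N,E} = FE E N`, semilinearly, and is the `q`-Frobenius modulo the maximal
ideal of `R_E`.

## Main results (namespace `Fermat.Agent.S35.H766`)

* `conj_mem_inertia`, `conj_mem_inertia'` : `D_P` normalises `I_P`;
* `map_mem_inertiaField`, `level_stable_decomp` : `σ ∈ D_P` maps the inertia field and every level
  `level P S` into itself;
* `DStable P E` : `E` is stable under `D_P`; `dStable_level`;
* `exists_goodField_dStable` : **IFF** — every finite set of algebraic numbers lies in a good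
  level which is `D_P`-stable;
* `resD h σ hσ : E ≃ₐ[ℚ] E` : restriction of `σ ∈ D_P` to a `D_P`-stable level, `resD_apply`,
  `resD_mul`, `resD_pow_apply`, `resD_eq_res` (agrees with `GoodField.res` on inertia);
* `resD_mem_RE`, `resR h σ hσ : RE P E ≃+* RE P E` : the action on `R_E`;
  `resR_mem_maximalIdeal_iff`;
* `frob_sub_pow_mem` : `s r - r ^ q ∈ 𝔪(R_E)` for a Frobenius lift `s` at `P`;
  `frob_iterate_sub_pow_mem` : `s^k r - r ^ (q ^ k) ∈ 𝔪(R_E)` (used with `k = 2`, `Q = q²`);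
* `inertia_sub_mem` : `τ r - r ∈ 𝔪(R_E)` for `τ ∈ I_P`;
* `exists_pow_resD_apply_eq` : every element of `E` has a finite orbit under `σ`;
* `actD N h σ hσ : FE E N ≃+* FE E N` : the semilinear action on the function field,
  `actD_algebraMap`, `actD_algebraMap_RE`, `coe_actD`, `actD_mul`, `actD_eq_act_res`.
-/

set_option autoImplicit false
set_option synthInstance.maxHeartbeats 400000

noncomputable section

namespace Fermat.Agent.S35.H766

open Fermat.Agent.A2 Fermat.Agent.A2.IF.H429 ModularCurve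

variable (P : ValuationSubring Qb)

/-! ## The decomposition group normalises the inertia group -/

/-- `D_P` normalises `I_P` (conjugation `σ τ σ⁻¹`). -/
theorem conj_mem_inertia {σ τ : Qb ≃ₐ[ℚ] Qb} (hσ : σ ∈ P.decompositionSubgroup ℚ)
    (hτ : τ ∈ P.inertiaSubgroupIn ℚ) : σ * τ * σ⁻¹ ∈ P.inertiaSubgroupIn ℚ := by
  obtain ⟨g, hg, rfl⟩ := hτ
  have hn : (P.inertiaSubgroup ℚ).Normal := by
    unfold ValuationSubring.inertiaSubgroup
    exact MonoidHom.normal_ker _
  exact ⟨(⟨σ, hσ⟩ : P.decompositionSubgroup ℚ) * g * (⟨σ, hσ⟩ : P.decompositionSubgroup ℚ)⁻¹,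
    hn.conj_mem g hg ⟨σ, hσ⟩, rfl⟩

/-- `D_P` normalises `I_P` (conjugation `σ⁻¹ τ σ`). -/
theorem conj_mem_inertia' {σ τ : Qb ≃ₐ[ℚ] Qb} (hσ : σ ∈ P.decompositionSubgroup ℚ)
    (hτ : τ ∈ P.inertiaSubgroupIn ℚ) : σ⁻¹ * τ * σ ∈ P.inertiaSubgroupIn ℚ := by
  have h := conj_mem_inertia P (inv_mem hσ) hτ
  rwa [inv_inv] at h

/-- `σ ∈ D_P` maps the inertia field `ℚ̄^{I_P}` into itself. -/
theorem map_mem_inertiaField {σ : Qb ≃ₐ[ℚ] Qb} (hσ : σ ∈ P.decompositionSubgroup ℚ)
    {e : Qb} (he : e ∈ inertiaField P) : σ e ∈ inertiaField P := by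
  rw [mem_inertiaField_iff] at he ⊢
  intro τ hτ
  have h1 := he (σ⁻¹ * τ * σ) (conj_mem_inertia' P hσ hτ)
  have h2 : (σ⁻¹ * τ * σ) e = σ⁻¹ (τ (σ e)) := rfl
  rw [h2] at h1
  have h3 := congrArg σ h1
  have h4 : σ (σ⁻¹ (τ (σ e))) = τ (σ e) := σ.apply_symm_apply _
  rw [h4] at h3
  exact h3

/-- `σ ∈ D_P` maps every level `ℚ̄^{I_P}(conjugates of S)` into itself. -/
theorem level_stable_decomp (S : Finset Qb) {σ : Qb ≃ₐ[ℚ] Qb}
    (hσ : σ ∈ P.decompositionSubgroup ℚ) {x : Qb} (hx : x ∈ level P S) :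
    σ x ∈ level P S := by
  have hx' := (mem_level_iff P S x).mp hx
  unfold level₁ at hx'
  induction hx' using IntermediateField.adjoin_induction with
  | mem y hy =>
    exact (mem_level_iff P S _).mpr
      (IntermediateField.subset_adjoin _ _ (map_mem_conjSet S σ hy))
  | algebraMap y => exact inertiaField_le_level P S (map_mem_inertiaField P hσ y.2)
  | add y z hy hz ihy ihz =>
    rw [map_add]
    exact add_mem (ihy ((mem_level_iff P S _).mpr hy)) (ihz ((mem_level_iff P S _).mpr hz))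
  | inv y hy ihy =>
    rw [map_inv₀]
    exact inv_mem (ihy ((mem_level_iff P S _).mpr hy))
  | mul y z hy hz ihy ihz =>
    rw [map_mul]
    exact mul_mem (ihy ((mem_level_iff P S _).mpr hy)) (ihz ((mem_level_iff P S _).mpr hz))

/-! ## `D_P`-stable levels -/

/-- The intermediate field `E ⊆ ℚ̄` is stable under the decomposition group of `P`. -/
def DStable (E : IntermediateField ℚ Qb) : Prop :=
  ∀ σ ∈ P.decompositionSubgroup ℚ, ∀ e : Qb, e ∈ E → σ e ∈ E

theorem dStable_level (S : Finset Qb) : DStable P (level P S) :=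
  fun _ hσ _ he => level_stable_decomp P S hσ he

/-- **IFF.**  Every finite set of algebraic numbers lies in a good level for `P` which is stable
under the decomposition group of `P`. -/
theorem exists_goodField_dStable (q : ℕ) (hq : q.Prime) (hP : P.LiesOverPrime q)
    (S : Finset Qb) :
    ∃ E : IntermediateField ℚ Qb, (∀ s ∈ S, s ∈ E) ∧ GoodField P E ∧ DStable P E :=
  ⟨level P S, fun _ hs => mem_level_of_mem P S hs, goodField_level q hq P hP S,
    dStable_level P S⟩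

variable {P}
variable {E : IntermediateField ℚ Qb}

/-- The restriction of `σ ∈ D_P` to a `D_P`-stable level. -/
def resD (h : DStable P E) (σ : Qb ≃ₐ[ℚ] Qb) (hσ : σ ∈ P.decompositionSubgroup ℚ) :
    E ≃ₐ[ℚ] E :=
  AlgEquiv.ofBijective
    { toFun := fun e => ⟨σ (e : Qb), h σ hσ e e.2⟩
      map_one' := Subtype.ext (map_one σ)
      map_mul' := fun a b => Subtype.ext (map_mul σ (a : Qb) (b : Qb))
      map_zero' := Subtype.ext (map_zero σ)
      map_add' := fun a b => Subtype.ext (map_add σ (a : Qb) (b : Qb))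
      commutes' := fun r => Subtype.ext (σ.commutes r) }
    ⟨fun _ _ hab => Subtype.ext (σ.injective (congrArg Subtype.val hab)),
      fun b => ⟨⟨σ⁻¹ (b : Qb), h σ⁻¹ (inv_mem hσ) b b.2⟩,
        Subtype.ext (σ.apply_symm_apply (b : Qb))⟩⟩

@[simp]
theorem resD_apply (h : DStable P E) (σ : Qb ≃ₐ[ℚ] Qb) (hσ : σ ∈ P.decompositionSubgroup ℚ)
    (e : E) : ((resD h σ hσ e : E) : Qb) = σ (e : Qb) := rfl

theorem resD_mul (h : DStable P E) (σ τ : Qb ≃ₐ[ℚ] Qb) (hσ : σ ∈ P.decompositionSubgroup ℚ)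
    (hτ : τ ∈ P.decompositionSubgroup ℚ) :
    resD h (σ * τ) (mul_mem hσ hτ) = resD h σ hσ * resD h τ hτ :=
  AlgEquiv.ext fun _ => Subtype.ext rfl

theorem resD_one (h : DStable P E) : resD h 1 (one_mem _) = 1 :=
  AlgEquiv.ext fun _ => Subtype.ext rfl

theorem resD_pow (h : DStable P E) (σ : Qb ≃ₐ[ℚ] Qb) (hσ : σ ∈ P.decompositionSubgroup ℚ)
    (k : ℕ) : resD h (σ ^ k) (pow_mem hσ k) = resD h σ hσ ^ k := by
  induction k with
  | zero => exact AlgEquiv.ext fun _ => Subtype.ext rfl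
  | succ n ih =>
    apply AlgEquiv.ext
    intro e
    apply Subtype.ext
    have h1 : (((resD h σ hσ ^ (n + 1)) e : E) : Qb) =
        (((resD h σ hσ ^ n) (resD h σ hσ e) : E) : Qb) := by
      rw [pow_succ]; rfl
    rw [h1, ← ih]
    show (σ ^ (n + 1)) (e : Qb) = (σ ^ n) (σ (e : Qb))
    rw [pow_succ]; rfl

/-- On the inertia group `resD` is the restriction `GoodField.res` of wall A2. -/
theorem resD_eq_res (h : DStable P E) (hE : GoodField P E) (τ : Qb ≃ₐ[ℚ] Qb)
    (hτ : τ ∈ P.inertiaSubgroupIn ℚ) :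
    resD h τ (decomp_of_inertia P hτ) = hE.res τ hτ :=
  AlgEquiv.ext fun _ => Subtype.ext rfl

/-! ## The action on `R_E = P ∩ E` -/

theorem resD_mem_RE (h : DStable P E) (σ : Qb ≃ₐ[ℚ] Qb) (hσ : σ ∈ P.decompositionSubgroup ℚ)
    {e : E} (he : e ∈ RE P E) : resD h σ hσ e ∈ RE P E :=
  mem_of_mem_decomp P hσ he

theorem resD_mem_RE_iff (h : DStable P E) (σ : Qb ≃ₐ[ℚ] Qb)
    (hσ : σ ∈ P.decompositionSubgroup ℚ) (e : E) : resD h σ hσ e ∈ RE P E ↔ e ∈ RE P E := by
  refine ⟨fun he => ?_, fun he => resD_mem_RE h σ hσ he⟩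
  have h1 := resD_mem_RE h σ⁻¹ (inv_mem hσ) he
  have h2 : resD h σ⁻¹ (inv_mem hσ) (resD h σ hσ e) = e :=
    Subtype.ext (σ.symm_apply_apply (e : Qb))
  rwa [h2] at h1

/-- The ring automorphism of `R_E` induced by `σ ∈ D_P`. -/
def resR (h : DStable P E) (σ : Qb ≃ₐ[ℚ] Qb) (hσ : σ ∈ P.decompositionSubgroup ℚ) :
    RE P E ≃+* RE P E where
  toFun r := ⟨resD h σ hσ (r : E), resD_mem_RE h σ hσ r.2⟩
  invFun r := ⟨resD h σ⁻¹ (inv_mem hσ) (r : E), resD_mem_RE h σ⁻¹ (inv_mem hσ) r.2⟩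
  left_inv r := Subtype.ext (Subtype.ext (σ.symm_apply_apply ((r : E) : Qb)))
  right_inv r := Subtype.ext (Subtype.ext (σ.apply_symm_apply ((r : E) : Qb)))
  map_mul' a b := Subtype.ext (map_mul (resD h σ hσ) (a : E) (b : E))
  map_add' a b := Subtype.ext (map_add (resD h σ hσ) (a : E) (b : E))

@[simp]
theorem coe_resR (h : DStable P E) (σ : Qb ≃ₐ[ℚ] Qb) (hσ : σ ∈ P.decompositionSubgroup ℚ)
    (r : RE P E) : ((resR h σ hσ r : RE P E) : E) = resD h σ hσ (r : E) := rfl

theorem coe_coe_resR (h : DStable P E) (σ : Qb ≃ₐ[ℚ] Qb)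
    (hσ : σ ∈ P.decompositionSubgroup ℚ) (r : RE P E) :
    (((resR h σ hσ r : RE P E) : E) : Qb) = σ ((r : E) : Qb) := rfl

/-- compatibility of `resD` and `resR` with `algebraMap R_E E` -/
theorem resD_algebraMap (h : DStable P E) (σ : Qb ≃ₐ[ℚ] Qb)
    (hσ : σ ∈ P.decompositionSubgroup ℚ) (r : RE P E) :
    resD h σ hσ (algebraMap (RE P E) E r) = algebraMap (RE P E) E (resR h σ hσ r) := rfl

theorem resR_mem_maximalIdeal_iff (h : DStable P E) (σ : Qb ≃ₐ[ℚ] Qb)
    (hσ : σ ∈ P.decompositionSubgroup ℚ) (r : RE P E) :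
    resR h σ hσ r ∈ IsLocalRing.maximalIdeal (RE P E) ↔
      r ∈ IsLocalRing.maximalIdeal (RE P E) := by
  rw [mem_maximalIdeal_RE_iff, mem_maximalIdeal_RE_iff, coe_coe_resR]
  refine ⟨fun hr => ?_, fun hr => mem_nonunits_of_mem_decomp P hσ hr⟩
  have h1 := mem_nonunits_of_mem_decomp P (inv_mem hσ) hr
  have h2 : σ⁻¹ (σ ((r : E) : Qb)) = ((r : E) : Qb) := σ.symm_apply_apply _
  rwa [h2] at h1

/-! ## Frobenius and inertia modulo the maximal ideal of `R_E` -/

/-- A Frobenius lift at `P` is the `q`-Frobenius modulo the maximal ideal of `R_E`. -/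
theorem frob_sub_pow_mem (h : DStable P E) {s : Qb ≃ₐ[ℚ] Qb} {q : ℕ}
    (hs : P.IsFrobeniusAt s q) (r : RE P E) :
    resR h s hs.mem_decompositionSubgroup r - r ^ q ∈ IsLocalRing.maximalIdeal (RE P E) := by
  rw [mem_maximalIdeal_RE_iff]
  exact Fermat.Agent.Lib.Cheb.H643.IsFrobeniusAt_sub_pow_mem hs r.2

/-- The `k`-th power of a Frobenius lift at `P` is the `q^k`-Frobenius modulo the maximal ideal
of `R_E`. -/
theorem frob_iterate_sub_pow_mem (h : DStable P E) {s : Qb ≃ₐ[ℚ] Qb} {q : ℕ}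
    (hs : P.IsFrobeniusAt s q) (k : ℕ) (r : RE P E) :
    (⇑(resR h s hs.mem_decompositionSubgroup))^[k] r - r ^ (q ^ k) ∈
      IsLocalRing.maximalIdeal (RE P E) := by
  induction k generalizing r with
  | zero => simp
  | succ n ih =>
    rw [Function.iterate_succ_apply]
    have h1 := ih (resR h s hs.mem_decompositionSubgroup r)
    have h2 : (resR h s hs.mem_decompositionSubgroup r) ^ (q ^ n) - r ^ (q ^ (n + 1)) ∈
        IsLocalRing.maximalIdeal (RE P E) := by
      have h3 : r ^ (q ^ (n + 1)) = (r ^ q) ^ (q ^ n) := by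
        rw [← pow_mul, pow_succ, mul_comm]
      rw [h3]
      obtain ⟨c, hc⟩ := sub_dvd_pow_sub_pow (resR h s hs.mem_decompositionSubgroup r) (r ^ q)
        (q ^ n)
      rw [hc]
      exact Ideal.mul_mem_right _ _ (frob_sub_pow_mem h hs r)
    have h4 := add_mem h1 h2
    rwa [sub_add_sub_cancel] at h4

/-- The square of a Frobenius lift at `P` is the `q²`-Frobenius modulo the maximal ideal of
`R_E` (the case `φ = s²`, `Q = q²` of cell FROB). -/
theorem frob_sq_sub_pow_mem (h : DStable P E) {s : Qb ≃ₐ[ℚ] Qb} {q : ℕ}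
    (hs : P.IsFrobeniusAt s q) (r : RE P E) :
    resR h s hs.mem_decompositionSubgroup (resR h s hs.mem_decompositionSubgroup r) -
      r ^ (q ^ 2) ∈ IsLocalRing.maximalIdeal (RE P E) :=
  frob_iterate_sub_pow_mem h hs 2 r

/-- An element of the inertia group is the identity modulo the maximal ideal of `R_E`. -/
theorem inertia_sub_mem (h : DStable P E) {τ : Qb ≃ₐ[ℚ] Qb} (hτ : τ ∈ P.inertiaSubgroupIn ℚ)
    (r : RE P E) :
    resR h τ (decomp_of_inertia P hτ) r - r ∈ IsLocalRing.maximalIdeal (RE P E) := by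
  rw [mem_maximalIdeal_RE_iff]
  exact sub_mem_nonunits_of_inertia P hτ r.2

/-- Every element of a `D_P`-stable level has a finite orbit under `σ ∈ D_P`. -/
theorem exists_pow_resD_apply_eq (h : DStable P E) (σ : Qb ≃ₐ[ℚ] Qb)
    (hσ : σ ∈ P.decompositionSubgroup ℚ) (e : E) :
    ∃ k : ℕ, (resD h σ hσ ^ (k + 1)) e = e := by
  obtain ⟨k, hk⟩ := exists_pow_apply_eq σ (e : Qb)
  refine ⟨k, Subtype.ext ?_⟩
  rw [← resD_pow h σ hσ (k + 1)]
  exact hk

/-- Some positive power of `σ ∈ D_P` fixes every element of a finite subset of the level. -/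
theorem exists_pow_resD_fixes_finset (h : DStable P E) (σ : Qb ≃ₐ[ℚ] Qb)
    (hσ : σ ∈ P.decompositionSubgroup ℚ) (T : Finset E) :
    ∃ r : ℕ, 0 < r ∧ ∀ e ∈ T, (resD h σ hσ ^ r) e = e := by
  classical
  obtain ⟨r, hr, hT⟩ := exists_pow_fixes_finset σ (T.image (fun e : E => (e : Qb)))
  refine ⟨r, hr, fun e he => Subtype.ext ?_⟩
  rw [← resD_pow h σ hσ r]
  exact hT (e : Qb) (Finset.mem_image_of_mem _ he)

/-! ## The semilinear action on the function field `F_{N,E}` -/

/-- The automorphism of `F_{N,E} = E(j(t^d) : d ∣ N)` induced by `σ ∈ D_P` (action on the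
coefficients of the `t`-expansion). -/
def actD (N : ℕ) (h : DStable P E) (σ : Qb ≃ₐ[ℚ] Qb) (hσ : σ ∈ P.decompositionSubgroup ℚ) :
    FE E N ≃+* FE E N :=
  arithmeticRingAut (modularFunctionFieldFull N) (resD h σ hσ)

theorem coe_actD (N : ℕ) (h : DStable P E) (σ : Qb ≃ₐ[ℚ] Qb)
    (hσ : σ ∈ P.decompositionSubgroup ℚ) (f : FE E N) :
    ((actD N h σ hσ f : FE E N) : LaurentSeries E) =
      coeffMap ((resD h σ hσ : E ≃ₐ[ℚ] E) : E →+* E) (f : LaurentSeries E) := rfl

/-- `actD` is semilinear over `resD`. -/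
theorem actD_algebraMap (N : ℕ) (h : DStable P E) (σ : Qb ≃ₐ[ℚ] Qb)
    (hσ : σ ∈ P.decompositionSubgroup ℚ) (e : E) :
    actD N h σ hσ (algebraMap E (FE E N) e) = algebraMap E (FE E N) (resD h σ hσ e) :=
  arithmeticRingAut_algebraMap (modularFunctionFieldFull N) (resD h σ hσ) e

/-- `actD` is semilinear over `resR`. -/
theorem actD_algebraMap_RE (N : ℕ) (h : DStable P E) (σ : Qb ≃ₐ[ℚ] Qb)
    (hσ : σ ∈ P.decompositionSubgroup ℚ) (r : RE P E) :
    actD N h σ hσ (algebraMap (RE P E) (FE E N) r) =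
      algebraMap (RE P E) (FE E N) (resR h σ hσ r) :=
  actD_algebraMap N h σ hσ (r : E)

theorem actD_mul (N : ℕ) (h : DStable P E) (σ τ : Qb ≃ₐ[ℚ] Qb)
    (hσ : σ ∈ P.decompositionSubgroup ℚ) (hτ : τ ∈ P.decompositionSubgroup ℚ) (f : FE E N) :
    actD N h (σ * τ) (mul_mem hσ hτ) f = actD N h σ hσ (actD N h τ hτ f) := by
  apply Subtype.ext
  rw [coe_actD, coe_actD, coe_actD, coeffMap_coeffMap]
  exact coeffMap_congr (RingHom.ext fun _ => rfl) _

/-- On the inertia group `actD` is the action used in `ModSSData` (`hτx`, `hτf`, `hτi`). -/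
theorem actD_eq_act_res (N : ℕ) (h : DStable P E) (hE : GoodField P E) (τ : Qb ≃ₐ[ℚ] Qb)
    (hτ : τ ∈ P.inertiaSubgroupIn ℚ) :
    actD N h τ (decomp_of_inertia P hτ) =
      arithmeticRingAut (modularFunctionFieldFull N) (hE.res τ hτ) := by
  unfold actD
  rw [resD_eq_res h hE τ hτ]

end Fermat.Agent.S35.H766
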