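import Fermat.Agent.S35.H766.Iff

/-!
# S35, cell FROB (helper766): ramified enlargement of a good level

For the step NORMALISE of the bad-Frobenius relation (`coord/S35-G-helper433.md`, §1): a function
`f` defined over a good level `E₀` becomes, over a larger good level `E` whose value group
contains `(1/m) · v(E₀ˣ)`, a unit at both Gauss valuations after multiplication by a constant and
an `m`-th power.  The enlargement is `E = level P (S₀ ∪ {π})`, `π ^ m = w₀` a uniformiser of
`R_{E₀}`; it is again a good level, stable under the decomposition group.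

* `level_mono` : `S ⊆ S' → level P S ≤ level P S'`;
* `valuation_eq_one_of_isUnit_RE` : units of `R_E` have valuation one;
* `exists_zpow_valuation_eq` : in a level with `R_E` a DVR with uniformiser `w`, every nonzero
  element has the valuation of a power of `w`;
* `exists_level_root` : **RAMIFY** — for every finite `S₀` and `m > 0` there is a finite
  `S ⊇ S₀` such that every nonzero `e ∈ level P S₀` has the valuation of an `m`-th power
  `c ^ m`, `c ∈ level P S`;
* `exists_goodField_dStable_root` : the same, packaged with `GoodField` and `DStable` for both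
  levels.
-/

set_option autoImplicit false
set_option synthInstance.maxHeartbeats 400000

noncomputable section

namespace Fermat.Agent.S35.H766

open Fermat.Agent.A2 Fermat.Agent.A2.IF.H429

variable (P : ValuationSubring Qb)

/-- The conjugate set is monotone. -/
theorem conjSet_mono {S S' : Finset Qb} (h : S ⊆ S') : conjSet S ⊆ conjSet S' := by
  intro x hx
  rw [mem_conjSet_iff] at hx ⊢
  rw [← Finset.prod_sdiff h, map_mul, hx, mul_zero]

/-- Levels are monotone in the finite set. -/
theorem level_mono {S S' : Finset Qb} (h : S ⊆ S') : level P S ≤ level P S' := by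
  intro x hx
  have hx' := (mem_level_iff P S x).mp hx
  unfold level₁ at hx'
  induction hx' using IntermediateField.adjoin_induction with
  | mem y hy =>
    exact (mem_level_iff P S' _).mpr (IntermediateField.subset_adjoin _ _ (conjSet_mono h hy))
  | algebraMap y => exact inertiaField_le_level P S' y.2
  | add y z hy hz ihy ihz =>
    exact add_mem (ihy ((mem_level_iff P S _).mpr hy)) (ihz ((mem_level_iff P S _).mpr hz))
  | inv y hy ihy => exact inv_mem (ihy ((mem_level_iff P S _).mpr hy))
  | mul y z hy hz ihy ihz =>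
    exact mul_mem (ihy ((mem_level_iff P S _).mpr hy)) (ihz ((mem_level_iff P S _).mpr hz))

variable {P}

/-- Units of `R_E = P ∩ E` have valuation one. -/
theorem valuation_eq_one_of_isUnit_RE {E : IntermediateField ℚ Qb} {u : RE P E}
    (hu : IsUnit u) : P.valuation (((u : E) : Qb)) = 1 := by
  have h1 : IsUnit (inclRE P E u) := hu.map (inclRE P E)
  exact (ValuationSubring.valuation_eq_one_iff P (inclRE P E u)).mp h1

/-- In `R_E`, a DVR with uniformiser `w`, every nonzero element of `R_E` has the valuation of a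
power of `w`. -/
theorem exists_pow_valuation_eq_of_mem {E : IntermediateField ℚ Qb}
    [IsDiscreteValuationRing (RE P E)] {w : RE P E} (hw : Irreducible w) (r : RE P E)
    (hr : r ≠ 0) :
    ∃ k : ℕ, P.valuation (((r : E) : Qb)) = P.valuation (((w : E) : Qb)) ^ k := by
  obtain ⟨k, u, hu⟩ := IsDiscreteValuationRing.eq_unit_mul_pow_irreducible hr hw
  refine ⟨k, ?_⟩
  have h1 : (((r : E) : Qb)) = ((((u : RE P E) : E) : Qb)) * (((w : E) : Qb)) ^ k := by
    have := congrArg (fun z : RE P E => (((z : E)) : Qb)) hu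
    simpa using this
  rw [h1, map_mul, map_pow, valuation_eq_one_of_isUnit_RE u.isUnit, one_mul]

/-- In a level `E` with `R_E` a DVR with uniformiser `w`, every nonzero element of `E` has the
valuation of an integral power of `w`. -/
theorem exists_zpow_valuation_eq {E : IntermediateField ℚ Qb}
    [IsDiscreteValuationRing (RE P E)] {w : RE P E} (hw : Irreducible w) {e : Qb} (he : e ∈ E)
    (he0 : e ≠ 0) :
    ∃ k : ℤ, P.valuation e = P.valuation (((w : E) : Qb)) ^ k := by
  rcases P.mem_or_inv_mem e with h | h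
  · obtain ⟨k, hk⟩ := exists_pow_valuation_eq_of_mem hw (⟨⟨e, he⟩, h⟩ : RE P E)
      (fun h0 => he0 (congrArg (fun z : RE P E => (((z : E)) : Qb)) h0))
    exact ⟨k, by rw [zpow_natCast]; exact hk⟩
  · have he' : e⁻¹ ∈ E := inv_mem he
    obtain ⟨k, hk⟩ := exists_pow_valuation_eq_of_mem hw (⟨⟨e⁻¹, he'⟩, h⟩ : RE P E)
      (fun h0 => inv_ne_zero he0 (congrArg (fun z : RE P E => (((z : E)) : Qb)) h0))
    refine ⟨-(k : ℤ), ?_⟩
    have h1 : P.valuation e⁻¹ = P.valuation (((w : E) : Qb)) ^ k := hk
    rw [map_inv₀] at h1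
    rw [zpow_neg, zpow_natCast, ← h1, inv_inv]

variable (P)

/-- **RAMIFY.**  For every finite set `S₀` and every `m > 0` there is a finite set `S ⊇ S₀` such
that every nonzero element of `level P S₀` has the valuation of an `m`-th power of an element
of `level P S`. -/
theorem exists_level_root (q : ℕ) (hq : q.Prime) (hP : P.LiesOverPrime q) (S₀ : Finset Qb)
    (m : ℕ) (hm : 0 < m) :
    ∃ S : Finset Qb, S₀ ⊆ S ∧ ∀ e : Qb, e ∈ level P S₀ → e ≠ 0 →
      ∃ c : Qb, c ∈ level P S ∧ c ≠ 0 ∧ P.valuation e = P.valuation (c ^ m) := by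
  classical
  have := isDiscreteValuationRing_level P q hq hP S₀
  obtain ⟨w, hw⟩ := IsDiscreteValuationRing.exists_irreducible (RE P (level P S₀))
  obtain ⟨π, hπ⟩ := IsAlgClosed.exists_pow_nat_eq (((w : level P S₀) : Qb)) hm
  have hw0 : (((w : level P S₀) : Qb)) ≠ 0 := fun h0 =>
    hw.ne_zero (Subtype.ext (Subtype.ext h0))
  have hπ0 : π ≠ 0 := by
    rintro rfl
    rw [zero_pow hm.ne'] at hπ
    exact hw0 hπ.symm
  refine ⟨insert π S₀, Finset.subset_insert _ _, fun e he he0 => ?_⟩
  obtain ⟨k, hk⟩ := exists_zpow_valuation_eq hw he he0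
  have hπS : π ∈ level P (insert π S₀) := mem_level_of_mem P _ (Finset.mem_insert_self _ _)
  refine ⟨π ^ k, zpow_mem hπS k, zpow_ne_zero k hπ0, ?_⟩
  rw [hk, ← hπ, map_pow, map_pow, map_zpow₀, ← zpow_natCast, ← zpow_natCast, ← zpow_mul,
    ← zpow_mul, mul_comm]

/-- **RAMIFY**, packaged: both levels are good and stable under the decomposition group. -/
theorem exists_goodField_dStable_root (q : ℕ) (hq : q.Prime) (hP : P.LiesOverPrime q)
    (S₀ : Finset Qb) (m : ℕ) (hm : 0 < m) :
    ∃ E₀ E : IntermediateField ℚ Qb, (∀ s ∈ S₀, s ∈ E₀) ∧ E₀ ≤ E ∧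
      GoodField P E₀ ∧ DStable P E₀ ∧ GoodField P E ∧ DStable P E ∧
      ∀ e : Qb, e ∈ E₀ → e ≠ 0 →
        ∃ c : Qb, c ∈ E ∧ c ≠ 0 ∧ P.valuation e = P.valuation (c ^ m) := by
  obtain ⟨S, hS, h⟩ := exists_level_root P q hq hP S₀ m hm
  exact ⟨level P S₀, level P S, fun _ hs => mem_level_of_mem P S₀ hs, level_mono P hS,
    goodField_level q hq P hP S₀, dStable_level P S₀, goodField_level q hq P hP S,
    dStable_level P S, h⟩

end Fermat.Agent.S35.H766
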